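import Mathlib

/-!
# Primitives of periodic holomorphic functions on the upper half plane vanishing at `i∞`
-/

set_option autoImplicit false

open Filter Topology Complex Function
open UpperHalfPlane hiding I
open scoped Manifold

namespace Fermat.Agent.S21lib

local notation "𝕢" => Periodic.qParam

/-- A holomorphic `h`-periodic function on `ℍ` that vanishes at `i∞` has a primitive which
vanishes at `i∞`. -/
theorem exists_primitive_of_periodic {h : ℝ} (hh : 0 < h) {g : ℍ → ℂ}
    (hper : Periodic (g ∘ ofComplex) h) (hhol : MDiff g) (hzero : IsZeroAtImInfty g) :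
    ∃ G : ℍ → ℂ, (∀ τ : ℍ, HasDerivAt (G ∘ ofComplex) (g τ) ↑τ) ∧
      Tendsto G atImInfty (𝓝 0) ∧ Periodic (G ∘ ofComplex) h := by
  have hbdd : IsBoundedAtImInfty g := hzero.isBoundedAtImInfty
  set φ := cuspFunction h g with hφ
  have hφd : DifferentiableOn ℂ φ (Metric.ball 0 1) :=
    differentiableOn_cuspFunction_ball hh hper hhol hbdd
  have hφ0 : φ 0 = 0 := hzero.cuspFunction_apply_zero hh
  have hψd : DifferentiableOn ℂ (dslope φ 0) (Metric.ball 0 1) :=
    (Complex.differentiableOn_dslope (Metric.ball_mem_nhds 0 one_pos)).mpr hφd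
  obtain ⟨K, hK0, hK⟩ := hψd.isExactOn_ball.with_val_at 0 0
  have h2pi : (2 * (Real.pi : ℂ) * I) ≠ 0 := Complex.two_pi_I_ne_zero
  have hhc : (h : ℂ) ≠ 0 := by exact_mod_cast hh.ne'
  refine ⟨fun τ => (h / (2 * Real.pi * I)) * K (𝕢 h τ), fun τ => ?_, ?_, ?_⟩
  · have hq1 : ‖𝕢 h (τ : ℂ)‖ < 1 := Periodic.norm_qParam_lt_one hh τ.im_pos
    have hqne : 𝕢 h (τ : ℂ) ≠ 0 := Periodic.qParam_ne_zero _
    have hqd : HasDerivAt (𝕢 h) (𝕢 h τ * (2 * Real.pi * I / h)) (τ : ℂ) := by
      simpa only [id_eq, mul_one] using!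
        (((hasDerivAt_id (τ : ℂ)).const_mul (2 * Real.pi * I)).div_const (h : ℂ)).cexp
    have hKd := (hK _ (mem_ball_zero_iff.mpr hq1)).comp (τ : ℂ) hqd
    have hval : dslope φ 0 (𝕢 h τ) * (𝕢 h τ * (2 * Real.pi * I / h)) * (h / (2 * Real.pi * I))
        = g τ := by
      rw [dslope_of_ne _ hqne, slope_def_field, hφ0, hφ, eq_cuspFunction τ hh.ne' hper]
      field_simp
      ring
    have hmain : HasDerivAt (fun z : ℂ => (h / (2 * Real.pi * I)) * K (𝕢 h z)) (g τ) (τ : ℂ) := by
      have := hKd.const_mul (h / (2 * Real.pi * I) : ℂ)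
      rw [mul_comm (h / (2 * Real.pi * I) : ℂ) (dslope φ 0 _ * _), hval] at this
      exact this
    refine hmain.congr_of_eventuallyEq ?_
    filter_upwards [isOpen_upperHalfPlaneSet.mem_nhds τ.im_pos] with z hz
    simp [Function.comp, ofComplex_apply_of_im_pos hz]
  · have hKc : ContinuousAt K 0 :=
      (hK 0 (Metric.mem_ball_self one_pos)).continuousAt
    have h1 : Tendsto (fun τ : ℍ => K (𝕢 h τ)) atImInfty (𝓝 0) := by
      have := hKc.tendsto.comp (qParam_tendsto_atImInfty hh)
      rwa [hK0] at this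
    simpa using h1.const_mul (h / (2 * Real.pi * I) : ℂ)
  · intro w
    by_cases hw : 0 < im w
    · have hw' : 0 < im (w + h) := by simpa using hw
      simp only [comp_apply, ofComplex_apply_of_im_pos hw', ofComplex_apply_of_im_pos hw]
      congr 2
      simp only [Periodic.qParam]
      rw [mul_add, add_div, Complex.exp_add, mul_div_cancel_right₀ _ hhc, Complex.exp_two_pi_mul_I,
        mul_one]
    · have hw1 : im w ≤ 0 := not_lt.mp hw
      have hw' : im (w + h) ≤ 0 := by simpa using hw1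
      simp [ofComplex_apply_of_im_nonpos hw', ofComplex_apply_of_im_nonpos hw1]

end Fermat.Agent.S21lib
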