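import Mathlib
import Fermat.Prelude.Def_ModularCurve_PeriodHomPair
import Fermat.Prelude.Thm_Subgroup_IsArithmetic_exists_nat_mem_strictPeriods_conj
import Fermat.Agent.S21lib.Primitive

/-!
# The equivariant primitive of a weight 2 cusp form, and linearity of the period map
-/

set_option autoImplicit false

open Filter Topology Complex Function CongruenceSubgroup ModularCurve ModularCurve.Period
open UpperHalfPlane hiding I
open scoped Manifold MatrixGroups ModularForm

namespace Fermat.Agent.S21lib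

/-- `F` is a holomorphic primitive of `f` on the upper half plane. -/
def IsPrim (F f : ℍ → ℂ) : Prop := ∀ τ : ℍ, HasDerivAt (F ∘ ofComplex) (f τ) ↑τ

theorem IsPrim.add {F G f g : ℍ → ℂ} (hF : IsPrim F f) (hG : IsPrim G g) :
    IsPrim (F + G) (f + g) := fun τ => (hF τ).add (hG τ)

theorem IsPrim.const_mul {F f : ℍ → ℂ} (c : ℂ) (hF : IsPrim F f) :
    IsPrim (fun z => c * F z) (fun z => c * f z) := fun τ => (hF τ).const_mul c

theorem IsPrim.mdiff {F f : ℍ → ℂ} (hF : IsPrim F f) : MDiff F := fun τ =>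
  mdifferentiableAt_iff.mpr (hF τ).differentiableAt

/-- Two primitives of the same function differ by a constant. -/
theorem IsPrim.exists_sub_eq {A B f : ℍ → ℂ} (hA : IsPrim A f) (hB : IsPrim B f) :
    ∃ c : ℂ, ∀ z : ℍ, A z - B z = c := by
  have hopen : IsOpen {z : ℂ | 0 < z.im} := isOpen_upperHalfPlaneSet
  have hd : ∀ z : ℂ, 0 < z.im → HasDerivAt (fun w => (A ∘ ofComplex) w - (B ∘ ofComplex) w) 0 z := by
    intro z hz
    have := (hA ⟨z, hz⟩).sub (hB ⟨z, hz⟩)
    rw [sub_self] at this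
    exact this
  obtain ⟨a, ha⟩ := hopen.exists_is_const_of_deriv_eq_zero
    (convex_halfSpace_im_gt 0).isPreconnected
    (f := fun w => (A ∘ ofComplex) w - (B ∘ ofComplex) w)
    (fun z hz => (hd z hz).differentiableAt.differentiableWithinAt)
    (fun z hz => (hd z hz).deriv)
  refine ⟨a, fun z => ?_⟩
  have := ha z z.im_pos
  simpa using this

/-- Chain rule for the action of `SL(2, ℤ)`. -/
theorem IsPrim.comp_smul {F f : ℍ → ℂ} (hF : IsPrim F f) (δ : SL(2, ℤ)) :
    IsPrim (fun w => F (δ • w)) (f ∣[(2 : ℤ)] δ) := by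
  intro τ
  have hdet1 : ((Matrix.SpecialLinearGroup.mapGL ℝ δ : GL (Fin 2) ℝ)).val.det = 1 := by
    have := congrArg Units.val (Matrix.SpecialLinearGroup.det_mapGL (S := ℝ) δ)
    rwa [Matrix.GeneralLinearGroup.val_det_apply, Units.val_one] at this
  have hdet : 0 < ((Matrix.SpecialLinearGroup.mapGL ℝ δ : GL (Fin 2) ℝ)).val.det := by
    rw [hdet1]; exact one_pos
  have h1 := (hasStrictDerivAt_smul hdet τ).hasDerivAt
  have h2 : HasDerivAt (F ∘ ofComplex) (f (δ • τ))
      (↑((Matrix.SpecialLinearGroup.mapGL ℝ δ : GL (Fin 2) ℝ) • ofComplex (τ : ℂ))) := by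
    rw [ofComplex_apply]
    exact hF (δ • τ)
  have h3 := h2.comp (τ : ℂ) h1
  have hval : f (δ • τ) * (((Matrix.SpecialLinearGroup.mapGL ℝ δ : GL (Fin 2) ℝ)).val.det /
      denom (Matrix.SpecialLinearGroup.mapGL ℝ δ : GL (Fin 2) ℝ) τ ^ 2) = (f ∣[(2 : ℤ)] δ) τ := by
    rw [ModularForm.SL_slash_apply, hdet1]
    simp only [Complex.ofReal_one, one_div, zpow_neg]
    rfl
  rw [hval] at h3
  refine h3.congr_of_eventuallyEq ?_
  filter_upwards with z
  simp [Function.comp]
  rfl

end Fermat.Agent.S21lib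

namespace Fermat.Agent.S21lib

variable {N : ℕ} [NeZero N]

/-- A uniform period for all the translates `f ∣[2] δ`. -/
theorem exists_uniform_period (N : ℕ) [NeZero N] : ∃ M : ℕ, 0 < M ∧
    ∀ (f : CuspForm (Gamma0 N) 2) (δ : SL(2, ℤ)),
      Periodic ((⇑f ∣[(2 : ℤ)] δ) ∘ ofComplex) (M : ℝ) := by
  obtain ⟨M, hM, h⟩ := Subgroup.IsArithmetic.exists_nat_mem_strictPeriods_conj
    ((Gamma0 N : Subgroup SL(2, ℤ)) : Subgroup (GL (Fin 2) ℝ))
  refine ⟨M, hM, fun f δ => ?_⟩
  have h1 := h δ⁻¹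
  rw [map_inv] at h1
  exact SlashInvariantFormClass.periodic_comp_ofComplex
    (CuspForm.translate f (Matrix.SpecialLinearGroup.mapGL ℝ δ)) h1

theorem exists_isPrim_slash (f : CuspForm (Gamma0 N) 2) (δ : SL(2, ℤ)) :
    ∃ G : ℍ → ℂ, IsPrim G (⇑f ∣[(2 : ℤ)] δ) ∧ Tendsto G atImInfty (𝓝 0) := by
  obtain ⟨M, hM, h⟩ := exists_uniform_period N
  obtain ⟨G, h1, h2, -⟩ := exists_primitive_of_periodic (h := (M : ℝ)) (by exact_mod_cast hM)
    (h f δ) (CuspFormClass.holo (CuspForm.translate f (Matrix.SpecialLinearGroup.mapGL ℝ δ)))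
    (CuspFormClass.zero_at_infty_slash f δ)
  exact ⟨G, h1, h2⟩

omit [NeZero N] in
theorem slash_eq_self (f : CuspForm (Gamma0 N) 2) (γ : Gamma0 N) :
    ⇑f ∣[(2 : ℤ)] (γ : SL(2, ℤ)) = ⇑f :=
  SlashInvariantFormClass.slash_action_eq f _ (Subgroup.mem_map_of_mem _ γ.2)

/-- Any primitive of `f` that vanishes at `i∞` is an equivariant primitive. -/
theorem hasEquivariantPrimitive_of_isPrim (f : CuspForm (Gamma0 N) 2) {F : ℍ → ℂ}
    (hF : IsPrim F f) (h0 : Tendsto F atImInfty (𝓝 0)) : HasEquivariantPrimitive N f F := by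
  refine ⟨hF, h0, fun γ => ?_, fun δ => ?_⟩
  · have h1 := hF.comp_smul (γ : SL(2, ℤ))
    rw [slash_eq_self] at h1
    exact h1.exists_sub_eq hF
  · obtain ⟨G, hG, hG0⟩ := exists_isPrim_slash f δ
    obtain ⟨c, hc⟩ := (hF.comp_smul δ).exists_sub_eq hG
    refine ⟨c, ?_⟩
    have : (fun w : ℍ => F (δ • w)) = fun w => G w + c := by
      funext w
      rw [← hc w]; ring
    rw [this]
    simpa using hG0.add_const c

theorem exists_hasEquivariantPrimitive (f : CuspForm (Gamma0 N) 2) :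
    ∃ F : ℍ → ℂ, HasEquivariantPrimitive N f F := by
  obtain ⟨G, hG, hG0⟩ := exists_isPrim_slash f 1
  rw [SlashAction.slash_one] at hG
  exact ⟨G, hasEquivariantPrimitive_of_isPrim f hG hG0⟩

omit [NeZero N] in
theorem HasEquivariantPrimitive.unique {f : CuspForm (Gamma0 N) 2} {F G : ℍ → ℂ}
    (hF : HasEquivariantPrimitive N f F) (hG : HasEquivariantPrimitive N f G) : F = G := by
  obtain ⟨c, hc⟩ := IsPrim.exists_sub_eq (f := f) hF.1 hG.1
  have h1 : Tendsto (fun z => F z - G z) atImInfty (𝓝 (0 - 0)) := hF.2.1.sub hG.2.1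
  have h2 : Tendsto (fun z => F z - G z) atImInfty (𝓝 c) := by
    simp only [hc]; exact tendsto_const_nhds
  have hc0 : c = 0 := by simpa using tendsto_nhds_unique h2 h1
  funext z
  have := hc z
  rw [hc0, sub_eq_zero] at this
  exact this

omit [NeZero N] in
/-- The basic formula for the period map. -/
theorem periodMap_apply {f : CuspForm (Gamma0 N) 2} {F : ℍ → ℂ}
    (hF : HasEquivariantPrimitive N f F) (γ : Gamma0 N) (z : ℍ) :
    periodMap N f (Additive.ofMul γ) = F ((γ : SL(2, ℤ)) • z) - F z := by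
  obtain ⟨F₀, h₀, h⟩ := periodMap_def N f hF
  obtain rfl := HasEquivariantPrimitive.unique h₀ hF
  rw [h, IsEquivariantPrimitive.periodHom_apply, IsEquivariantPrimitive.sub_eq_period]

theorem existsPeriodMapLinear (N : ℕ) [NeZero N] : ExistsPeriodMapLinear N := by
  refine ⟨{ toFun := periodMap N, map_add' := fun f g => ?_, map_smul' := fun c f => ?_ },
    fun f => rfl⟩
  · obtain ⟨F, hF⟩ := exists_hasEquivariantPrimitive f
    obtain ⟨G, hG⟩ := exists_hasEquivariantPrimitive g
    have hFG : HasEquivariantPrimitive N (f + g) (F + G) :=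
      hasEquivariantPrimitive_of_isPrim (f + g) (IsPrim.add (f := f) (g := g) hF.1 hG.1)
        (by have := hF.2.1.add hG.2.1; rw [add_zero] at this; exact this)
    refine AddMonoidHom.ext fun γ => ?_
    obtain ⟨γ, rfl⟩ := Additive.ofMul.surjective γ
    rw [AddMonoidHom.add_apply, periodMap_apply hFG γ UpperHalfPlane.I,
      periodMap_apply hF γ UpperHalfPlane.I, periodMap_apply hG γ UpperHalfPlane.I]
    simp only [Pi.add_apply]
    ring
  · obtain ⟨F, hF⟩ := exists_hasEquivariantPrimitive f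
    have hcF : HasEquivariantPrimitive N (c • f) (fun z => c * F z) :=
      hasEquivariantPrimitive_of_isPrim (c • f) (IsPrim.const_mul (f := f) c hF.1)
        (by simpa using hF.2.1.const_mul c)
    refine AddMonoidHom.ext fun γ => ?_
    obtain ⟨γ, rfl⟩ := Additive.ofMul.surjective γ
    rw [RingHom.id_apply, AddMonoidHom.smul_apply, periodMap_apply hcF γ UpperHalfPlane.I,
      periodMap_apply hF γ UpperHalfPlane.I, smul_eq_mul]
    ring

end Fermat.Agent.S21lib
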