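import Mathlib

/-!
# A maximum principle on `Γ \ ℍ`

A holomorphic function on the upper half plane whose absolute value is invariant under a finite
index subgroup of `SL(2, ℤ)`, and all of whose `SL(2, ℤ)`-translates are periodic and bounded
at `i∞`, is constant.
-/

set_option autoImplicit false

open Filter Topology Complex Function
open UpperHalfPlane hiding I
open scoped Manifold MatrixGroups

namespace Fermat.Agent.S21lib

local notation "𝕢" => Periodic.qParam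

theorem periodic_comp_ofComplex_of_vadd {g : ℍ → ℂ} {M : ℝ}
    (h : ∀ w : ℍ, g (M +ᵥ w) = g w) : Periodic (g ∘ ofComplex) (M : ℂ) := by
  intro w
  by_cases hw : 0 < im w
  · have hw' : 0 < im (w + M) := by simpa using hw
    simp only [comp_apply, ofComplex_apply_of_im_pos hw', ofComplex_apply_of_im_pos hw]
    rw [← h ⟨w, hw⟩]
    congr 1
    ext
    simp [add_comm]
  · have hw1 : im w ≤ 0 := not_lt.mp hw
    have hw' : im (w + M) ≤ 0 := by simpa using hw1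
    simp [ofComplex_apply_of_im_nonpos hw', ofComplex_apply_of_im_nonpos hw1]

theorem vadd_of_periodic_comp_ofComplex {g : ℍ → ℂ} {M : ℝ}
    (h : Periodic (g ∘ ofComplex) (M : ℂ)) (w : ℍ) : g (M +ᵥ w) = g w := by
  have := h (w : ℂ)
  simp only [comp_apply, ofComplex_apply] at this
  rw [← this]
  congr 1
  have hw' : 0 < im ((w : ℂ) + M) := by simpa using w.im_pos
  rw [ofComplex_apply_of_im_pos hw']
  ext
  simp [add_comm]

theorem eq_const_of_norm_invariant {Γ : Subgroup SL(2, ℤ)} [Γ.FiniteIndex] {E : ℍ → ℂ}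
    {M : ℝ} (hM : 0 < M)
    (hhol : ∀ δ : SL(2, ℤ), MDiff (fun w : ℍ => E (δ • w)))
    (hinv : ∀ γ ∈ Γ, ∀ z : ℍ, ‖E (γ • z)‖ = ‖E z‖)
    (hper : ∀ (δ : SL(2, ℤ)) (w : ℍ), E (δ • (M +ᵥ w)) = E (δ • w))
    (hbdd : ∀ δ : SL(2, ℤ), IsBoundedAtImInfty (fun w : ℍ => E (δ • w))) :
    ∃ c : ℂ, ∀ z : ℍ, E z = c := by
  classical
  -- the cusp functions
  set φ : SL(2, ℤ) → ℂ → ℂ := fun δ => cuspFunction M (fun w : ℍ => E (δ • w)) with hφ
  have hP : ∀ δ : SL(2, ℤ), Periodic ((fun w : ℍ => E (δ • w)) ∘ ofComplex) (M : ℂ) := fun δ =>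
    periodic_comp_ofComplex_of_vadd (hper δ)
  have hφd : ∀ δ, DifferentiableOn ℂ (φ δ) (Metric.ball 0 1) := fun δ =>
    differentiableOn_cuspFunction_ball hM (hP δ) (hhol δ) (hbdd δ)
  have hφE : ∀ δ (w : ℍ), φ δ (𝕢 M w) = E (δ • w) := fun δ w =>
    eq_cuspFunction w hM.ne' (hP δ)
  set r : ℝ := Real.exp (-Real.pi / M) with hr
  have hr1 : r < 1 := by
    rw [hr, Real.exp_lt_one_iff]
    exact div_neg_of_neg_of_pos (neg_lt_zero.mpr Real.pi_pos) hM
  have hsub : Metric.closedBall (0 : ℂ) r ⊆ Metric.ball 0 1 := Metric.closedBall_subset_ball hr1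
  -- maxima on the closed ball
  have hmax : ∀ δ, ∃ q ∈ Metric.closedBall (0 : ℂ) r,
      IsMaxOn (fun q => ‖φ δ q‖) (Metric.closedBall (0 : ℂ) r) q := fun δ =>
    (isCompact_closedBall (0 : ℂ) r).exists_isMaxOn
      ⟨0, Metric.mem_closedBall_self (Real.exp_pos _).le⟩
      ((hφd δ).continuousOn.mono hsub).norm
  choose qm hqm hqmax using hmax
  haveI : Finite (SL(2, ℤ) ⧸ Γ) := Subgroup.finite_quotient_of_finiteIndex
  obtain ⟨x₀, hx₀⟩ := Finite.exists_max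
    (fun x : SL(2, ℤ) ⧸ Γ => ‖φ (x.out)⁻¹ (qm (x.out)⁻¹)‖)
  set δ₀ : SL(2, ℤ) := (x₀.out)⁻¹ with hδ₀
  set m : ℝ := ‖φ δ₀ (qm δ₀)‖ with hm
  -- the global bound
  have hbound : ∀ z : ℍ, ‖E z‖ ≤ m := by
    intro z
    obtain ⟨g, hg⟩ := ModularGroup.exists_one_half_le_im_smul z
    obtain ⟨γ₁, hγ₁⟩ := QuotientGroup.mk_out_eq_mul Γ g
    set x : SL(2, ℤ) ⧸ Γ := QuotientGroup.mk g with hx
    have h1 : (x.out)⁻¹ • (g • z) = (γ₁ : SL(2, ℤ))⁻¹ • z := by
      rw [hγ₁, ← mul_smul]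
      congr 1
      group
    have h2 : ‖E z‖ = ‖E ((x.out)⁻¹ • (g • z))‖ := by
      rw [h1, hinv _ (Γ.inv_mem γ₁.2)]
    rw [h2, ← hφE]
    have h3 : 𝕢 M (g • z : ℍ) ∈ Metric.closedBall (0 : ℂ) r := by
      rw [mem_closedBall_zero_iff, Periodic.norm_qParam, hr]
      apply Real.exp_le_exp.mpr
      rw [div_le_div_iff_of_pos_right hM]
      have : (1 / 2 : ℝ) ≤ ((g • z : ℍ) : ℂ).im := hg
      nlinarith [Real.pi_pos]
    exact (hqmax _ h3).trans (hx₀ x)
  -- the maximum principle on the unit ball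
  have hball : ∀ q ∈ Metric.ball (0 : ℂ) 1, ‖φ δ₀ q‖ ≤ m := by
    have hne : ∀ q ∈ Metric.ball (0 : ℂ) 1, q ≠ 0 → ‖φ δ₀ q‖ ≤ m := by
      intro q hq hq0
      have him : 0 < (Periodic.invQParam M q).im :=
        Periodic.im_invQParam_pos_of_norm_lt_one hM (mem_ball_zero_iff.mp hq) hq0
      have := hφE δ₀ ⟨_, him⟩
      rw [UpperHalfPlane.coe_mk, Periodic.qParam_right_inv hM.ne' hq0] at this
      rw [this]
      exact hbound _
    intro q hq
    by_cases hq0 : q = 0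
    · subst hq0
      have hc : ContinuousAt (φ δ₀) 0 :=
        ((hφd δ₀).differentiableAt (Metric.ball_mem_nhds 0 one_pos)).continuousAt
      have ht : Tendsto (fun q => ‖φ δ₀ q‖) (𝓝[≠] 0) (𝓝 ‖φ δ₀ 0‖) :=
        (hc.tendsto.mono_left nhdsWithin_le_nhds).norm
      refine le_of_tendsto ht ?_
      filter_upwards [self_mem_nhdsWithin, mem_nhdsWithin_of_mem_nhds
        (Metric.ball_mem_nhds (0 : ℂ) one_pos)] with q hq0 hq1
      exact hne q hq1 hq0
    · exact hne q hq hq0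
  have hconst := Complex.eqOn_of_isPreconnected_of_isMaxOn_norm
    (convex_ball (0 : ℂ) 1).isPreconnected Metric.isOpen_ball (hφd δ₀) (hsub (hqm δ₀))
    (fun q hq => hball q hq)
  refine ⟨φ δ₀ (qm δ₀), fun z => ?_⟩
  have h1 : E z = E (δ₀ • (δ₀⁻¹ • z)) := by rw [smul_inv_smul]
  rw [h1, ← hφE]
  exact hconst (mem_ball_zero_iff.mpr (Periodic.norm_qParam_lt_one hM (δ₀⁻¹ • z).im_pos))

end Fermat.Agent.S21lib
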