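import Mathlib
import Fermat.Prelude.Def_ModularCurve_PeriodHomPair
import Fermat.Agent.S21lib.Equivariant

/-!
# Periods of cusp forms vanish on parabolic elements
-/

set_option autoImplicit false

open Filter Topology Complex Function CongruenceSubgroup ModularCurve ModularCurve.Period
open UpperHalfPlane hiding I
open scoped Manifold MatrixGroups ModularForm

namespace Fermat.Agent.S21lib

/-- An element of `SL(2, ℤ)` of trace `±2` is conjugate in `SL(2, ℤ)` to an upper triangular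
matrix. -/
theorem exists_conj_upperTriangular (γ : SL(2, ℤ))
    (h : ((γ : Matrix (Fin 2) (Fin 2) ℤ)).trace ^ 2 = 4) :
    ∃ δ u : SL(2, ℤ), γ * δ = δ * u ∧ u 1 0 = 0 := by
  have hdet : γ 0 0 * γ 1 1 - γ 0 1 * γ 1 0 = 1 := by
    have := γ.det_coe
    rwa [Matrix.det_fin_two] at this
  rw [Matrix.trace_fin_two] at h
  by_cases hc : γ 1 0 = 0
  · exact ⟨1, γ, by simp, hc⟩
  obtain ⟨ε, hε, hε2⟩ : ∃ ε : ℤ, γ 0 0 + γ 1 1 = 2 * ε ∧ ε ^ 2 = 1 := by
    have h4 : (γ 0 0 + γ 1 1 - 2) * (γ 0 0 + γ 1 1 + 2) = 0 := by linear_combination h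
    rcases mul_eq_zero.mp h4 with h' | h'
    · exact ⟨1, by linarith, by norm_num⟩
    · exact ⟨-1, by linarith, by norm_num⟩
  set g : ℤ := (Int.gcd (γ 0 0 - ε) (γ 1 0) : ℤ) with hg
  have hgpos : 0 < Int.gcd (γ 0 0 - ε) (γ 1 0) := Int.gcd_pos_of_ne_zero_right _ hc
  have hg0 : g ≠ 0 := by rw [hg]; exact_mod_cast hgpos.ne'
  obtain ⟨x, hx⟩ : g ∣ γ 0 0 - ε := Int.gcd_dvd_left ..
  obtain ⟨y, hy⟩ : g ∣ γ 1 0 := Int.gcd_dvd_right ..
  have hcop : IsCoprime x y := by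
    have h1 := Int.gcd_div_gcd_div_gcd (i := γ 0 0 - ε) (j := γ 1 0) hgpos
    rw [← hg] at h1
    rw [Int.isCoprime_iff_gcd_eq_one]
    have e1 : (γ 0 0 - ε) / g = x := by rw [hx]; exact Int.mul_ediv_cancel_left _ hg0
    have e2 : γ 1 0 / g = y := by rw [hy]; exact Int.mul_ediv_cancel_left _ hg0
    rwa [e1, e2] at h1
  obtain ⟨δ, hδ0, hδ1⟩ := hcop.exists_SL2_col 0
  refine ⟨δ, δ⁻¹ * γ * δ, by group, ?_⟩
  have key : g ^ 2 * (-(y * (γ 0 0 * x + γ 0 1 * y)) + x * (γ 1 0 * x + γ 1 1 * y)) = 0 := by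
    have e1 : g * x = γ 0 0 - ε := hx.symm
    have e2 : g * y = γ 1 0 := hy.symm
    have : g ^ 2 * (-(y * (γ 0 0 * x + γ 0 1 * y)) + x * (γ 1 0 * x + γ 1 1 * y))
        = -((g * y) * (γ 0 0 * (g * x) + γ 0 1 * (g * y)))
          + (g * x) * (γ 1 0 * (g * x) + γ 1 1 * (g * y)) := by ring
    rw [this, e1, e2]
    linear_combination (γ 1 0) * hdet - (γ 1 0) * ε * hε - (γ 1 0) * hε2
  have key' := (mul_eq_zero.mp key).resolve_left (pow_ne_zero 2 hg0)
  have hinv10 : (δ⁻¹ : SL(2, ℤ)) 1 0 = -y := by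
    rw [Matrix.SpecialLinearGroup.SL2_inv_expl]; simp [hδ1]
  have hinv11 : (δ⁻¹ : SL(2, ℤ)) 1 1 = x := by
    rw [Matrix.SpecialLinearGroup.SL2_inv_expl]; simp [hδ0]
  simp only [Matrix.SpecialLinearGroup.coe_mul, Matrix.mul_apply, Fin.sum_univ_two, hδ0, hδ1,
    hinv10, hinv11]
  linear_combination key'

variable {N : ℕ} [NeZero N]

theorem tendsto_SL_smul_atImInfty {u : SL(2, ℤ)} (hu : u 1 0 = 0) :
    Tendsto (fun w : ℍ => u • w) atImInfty atImInfty := by
  have : (Matrix.SpecialLinearGroup.mapGL ℝ u : GL (Fin 2) ℝ) 1 0 = 0 := by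
    simp [hu]
  exact tendsto_smul_atImInfty this

theorem periodMap_mem_parabolicHoms (f : CuspForm (Gamma0 N) 2) :
    periodMap N f ∈ parabolicHoms ℂ (Gamma0 N) ℂ := by
  rw [mem_parabolicHoms_iff]
  intro γ hγ
  obtain ⟨F, hF⟩ := exists_hasEquivariantPrimitive f
  obtain ⟨δ, u, hδu, hu⟩ := exists_conj_upperTriangular (γ : SL(2, ℤ)) hγ
  obtain ⟨L, hL⟩ := hF.2.2.2 δ
  have h1 : ∀ w : ℍ, periodMap N f (Additive.ofMul γ) = F (δ • (u • w)) - F (δ • w) := by
    intro w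
    rw [periodMap_apply hF γ (δ • w), ← mul_smul, hδu, mul_smul]
  have h2 : Tendsto (fun w : ℍ => F (δ • (u • w)) - F (δ • w)) atImInfty (𝓝 (L - L)) :=
    (hL.comp (tendsto_SL_smul_atImInfty hu)).sub hL
  have h3 : Tendsto (fun w : ℍ => F (δ • (u • w)) - F (δ • w)) atImInfty
      (𝓝 (periodMap N f (Additive.ofMul γ))) := by
    simp only [← h1]
    exact tendsto_const_nhds
  simpa using tendsto_nhds_unique h3 h2

/-- An explicit formula for `periodHomPair`. -/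
theorem periodHomPair_apply (f g : CuspForm (Gamma0 N) 2) :
    periodHomPair N (f, g) =
      (periodMap N f + charInvolution N ℂ ℂ (periodMap N f)) +
        (periodMap N g - charInvolution N ℂ ℂ (periodMap N g)) := by
  obtain ⟨pml, hpml, h⟩ := periodHomPair_def N (existsPeriodMapLinear N)
  rw [h]
  simp [LinearMap.coprod_apply, hpml]

theorem range_periodHomPair_le (N : ℕ) [NeZero N] :
    LinearMap.range (periodHomPair N) ≤ parabolicHoms ℂ (Gamma0 N) ℂ := by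
  rintro _ ⟨⟨f, g⟩, rfl⟩
  rw [periodHomPair_apply]
  exact Submodule.add_mem _
    (Submodule.add_mem _ (periodMap_mem_parabolicHoms f)
      (charInvolution_mem_parabolicHoms N ℂ ℂ (periodMap_mem_parabolicHoms f)))
    (Submodule.sub_mem _ (periodMap_mem_parabolicHoms g)
      (charInvolution_mem_parabolicHoms N ℂ ℂ (periodMap_mem_parabolicHoms g)))

end Fermat.Agent.S21lib
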