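import Mathlib
import Fermat.Prelude.Def_ModularCurve_PeriodHomPair
import Fermat.Agent.S21lib.Equivariant
import Fermat.Agent.S21lib.Parabolic
import Fermat.Agent.S21lib.MaxPrinciple

/-!
# Injectivity of the Eichler–Shimura period map
-/

set_option autoImplicit false

open Filter Topology Complex Function CongruenceSubgroup ModularCurve ModularCurve.Period
open UpperHalfPlane hiding I
open scoped Manifold MatrixGroups ModularForm ComplexConjugate

namespace Fermat.Agent.S21lib

/-- The reflection `z ↦ -conj z` of the upper half plane. -/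
noncomputable def refl (z : ℍ) : ℍ := ⟨-conj (z : ℂ), by simpa using z.im_pos⟩

@[simp] theorem coe_refl (z : ℍ) : ((refl z : ℍ) : ℂ) = -conj (z : ℂ) := rfl

@[simp] theorem im_refl (z : ℍ) : (refl z).im = z.im := by
  change (-conj (z : ℂ)).im = (z : ℂ).im
  simp

theorem refl_smul (δ : SL(2, ℤ)) (z : ℍ) : refl (δ • z) = jConjSL δ • refl z := by
  ext
  rw [coe_refl, coe_specialLinearGroup_apply, coe_specialLinearGroup_apply, coe_refl]
  simp only [jConjSL_coe, jConjMat_apply_zero_zero, jConjMat_apply_zero_one,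
    jConjMat_apply_one_zero, jConjMat_apply_one_one, map_div₀, map_add, map_mul]
  simp only [algebraMap_int_eq, eq_intCast, Int.cast_neg, Complex.ofReal_neg, Complex.ofReal_intCast,
    map_intCast]
  rw [← neg_div]
  congr 1 <;> ring

theorem refl_vadd (M : ℝ) (w : ℍ) : refl (M +ᵥ w) = (-M) +ᵥ refl w := by
  ext
  simp [coe_vadd]
  ring

theorem tendsto_refl : Tendsto refl atImInfty atImInfty := by
  rw [atImInfty, tendsto_comap_iff]
  have : UpperHalfPlane.im ∘ refl = UpperHalfPlane.im := by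
    funext z; simp
  rw [this]
  exact tendsto_comap

theorem IsPrim.conjRefl {F f : ℍ → ℂ} (hF : IsPrim F f) :
    IsPrim (fun z => conj (F (refl z))) (fun z => -conj (f (refl z))) := by
  intro τ
  -- G z = (F ∘ ofComplex) (-z) has derivative -f at conj τ
  have h1 : HasDerivAt (fun z : ℂ => (F ∘ ofComplex) (-z)) (-(f (refl τ))) (conj (τ : ℂ)) := by
    have h0 : HasDerivAt (F ∘ ofComplex) (f (refl τ)) (-(conj (τ : ℂ))) := hF (refl τ)
    have := h0.scomp (conj (τ : ℂ)) (hasDerivAt_neg (conj (τ : ℂ)))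
    rw [smul_eq_mul, neg_one_mul] at this
    exact this
  have h2 := h1.conj_conj
  rw [Complex.conj_conj, map_neg] at h2
  refine h2.congr_of_eventuallyEq ?_
  filter_upwards [isOpen_upperHalfPlaneSet.mem_nhds τ.im_pos] with z hz
  simp only [comp_apply, ofComplex_apply_of_im_pos hz]
  congr 2
  have : 0 < (-conj z).im := by simpa using hz
  rw [ofComplex_apply_of_im_pos this]
  rfl

theorem IsPrim.cexp {A a : ℍ → ℂ} (hA : IsPrim A a) :
    IsPrim (fun z => Complex.exp (A z)) (fun z => Complex.exp (A z) * a z) := by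
  intro τ
  have := (hA τ).cexp
  simp only [comp_apply, ofComplex_apply] at this
  exact this

theorem IsPrim.eq_zero_of_const {A a : ℍ → ℂ} (hA : IsPrim A a) {c : ℂ} (hc : ∀ z, A z = c)
    (τ : ℍ) : a τ = 0 := by
  have h1 : A ∘ ofComplex = fun _ => c := by
    funext z; simp [hc]
  have h2 := hA τ
  rw [h1] at h2
  exact h2.unique (hasDerivAt_const _ _)

/-- The class of functions to which the maximum principle will be applied (after
exponentiating). -/
structure Nice (M : ℝ) (A a : ℍ → ℂ) : Prop where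
  prim : IsPrim A a
  per : ∀ (δ : SL(2, ℤ)) (w : ℍ), A (δ • (M +ᵥ w)) = A (δ • w)
  lim : ∀ δ : SL(2, ℤ), ∃ L : ℂ, Tendsto (fun w : ℍ => A (δ • w)) atImInfty (𝓝 L)

theorem Nice.add {M : ℝ} {A a B b : ℍ → ℂ} (hA : Nice M A a) (hB : Nice M B b) :
    Nice M (A + B) (a + b) where
  prim := hA.prim.add hB.prim
  per δ w := by simp only [Pi.add_apply, hA.per, hB.per]
  lim δ := by
    obtain ⟨L, hL⟩ := hA.lim δ
    obtain ⟨L', hL'⟩ := hB.lim δ
    exact ⟨L + L', hL.add hL'⟩

theorem Nice.const_mul {M : ℝ} {A a : ℍ → ℂ} (c : ℂ) (hA : Nice M A a) :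
    Nice M (fun z => c * A z) (fun z => c * a z) where
  prim := hA.prim.const_mul c
  per δ w := by simp only [hA.per]
  lim δ := by
    obtain ⟨L, hL⟩ := hA.lim δ
    exact ⟨c * L, hL.const_mul c⟩

theorem Nice.conjRefl {M : ℝ} {A a : ℍ → ℂ} (hA : Nice M A a) :
    Nice M (fun z => conj (A (refl z))) (fun z => -conj (a (refl z))) where
  prim := hA.prim.conjRefl
  per δ w := by
    simp only [refl_smul, refl_vadd]
    congr 1
    have := hA.per (jConjSL δ) ((-M) +ᵥ refl w)
    rw [← this]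
    congr 2
    ext
    simp
  lim δ := by
    obtain ⟨L, hL⟩ := hA.lim (jConjSL δ)
    refine ⟨conj L, ?_⟩
    simp only [refl_smul]
    exact (Complex.continuous_conj.tendsto L).comp (hL.comp tendsto_refl)

/-- The maximum principle for `Nice` functions: if the real part is invariant then the
derivative vanishes. -/
theorem Nice.eq_zero {Γ : Subgroup SL(2, ℤ)} [Γ.FiniteIndex] {M : ℝ} (hM : 0 < M)
    {A a : ℍ → ℂ} (hA : Nice M A a)
    (hinv : ∀ γ ∈ Γ, ∀ z : ℍ, (A (γ • z)).re = (A z).re) (τ : ℍ) : a τ = 0 := by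
  obtain ⟨c, hc⟩ := eq_const_of_norm_invariant (Γ := Γ) (E := fun z => Complex.exp (A z)) hM
    (fun δ => (hA.prim.comp_smul δ).cexp.mdiff)
    (fun γ hγ z => by simp only [Complex.norm_exp, hinv γ hγ z])
    (fun δ w => by simp only [hA.per])
    (fun δ => by
      obtain ⟨L, hL⟩ := hA.lim δ
      exact ((Complex.continuous_exp.tendsto L).comp hL).isBigO_one ℝ)
  have := hA.prim.cexp.eq_zero_of_const hc τ
  exact (mul_eq_zero.mp this).resolve_left (Complex.exp_ne_zero _)

variable {N : ℕ} [NeZero N]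

theorem exists_nice (N : ℕ) [NeZero N] : ∃ M : ℝ, 0 < M ∧
    ∀ (f : CuspForm (Gamma0 N) 2) (F : ℍ → ℂ), HasEquivariantPrimitive N f F → Nice M F f := by
  obtain ⟨M, hM, h⟩ := exists_uniform_period N
  have hM' : (0 : ℝ) < M := by exact_mod_cast hM
  refine ⟨M, hM', fun f F hF => ⟨hF.1, fun δ w => ?_, hF.2.2.2⟩⟩
  obtain ⟨G, h1, -, h3⟩ := exists_primitive_of_periodic (h := (M : ℝ)) hM'
    (h f δ) (CuspFormClass.holo (CuspForm.translate f (Matrix.SpecialLinearGroup.mapGL ℝ δ)))
    (CuspFormClass.zero_at_infty_slash f δ)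
  obtain ⟨c, hc⟩ := (IsPrim.comp_smul (f := f) hF.1 δ).exists_sub_eq h1
  have e1 := hc ((M : ℝ) +ᵥ w)
  have e2 := hc w
  rw [vadd_of_periodic_comp_ofComplex h3 w] at e1
  linear_combination e1 - e2

/-- The key injectivity statement: if `P f + s • ι (P f) = 0` for a real number `s`, then
`f = 0`. -/
theorem eq_zero_of_periodMap_add_smul (f : CuspForm (Gamma0 N) 2) (s : ℝ)
    (h : ∀ γ : Gamma0 N, periodMap N f (Additive.ofMul γ) +
      s * periodMap N f (Additive.ofMul (jConjGamma0 N γ)) = 0) : f = 0 := by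
  obtain ⟨M, hM, hnice⟩ := exists_nice N
  obtain ⟨F, hF⟩ := exists_hasEquivariantPrimitive f
  have hN : Nice M F f := hnice f F hF
  have hNc := hN.conjRefl
  have hP : ∀ (γ : Gamma0 N) (z : ℍ),
      F ((γ : SL(2, ℤ)) • z) = F z + periodMap N f (Additive.ofMul γ) := by
    intro γ z
    rw [periodMap_apply hF γ z]; ring
  have hPc : ∀ (γ : Gamma0 N) (z : ℍ), conj (F (refl ((γ : SL(2, ℤ)) • z))) =
      conj (F (refl z)) + conj (periodMap N f (Additive.ofMul (jConjGamma0 N γ))) := by
    intro γ z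
    rw [refl_smul, ← jConjGamma0_coe, hP, map_add]
  have hA1 := hN.add (hNc.const_mul (s : ℂ))
  have hA2 := (hN.add (hNc.const_mul (-s : ℂ))).const_mul Complex.I
  have z1 := fun τ => hA1.eq_zero (Γ := Gamma0 N) hM (fun γ hγ z => by
    have e1 := hP ⟨γ, hγ⟩ z
    have e2 := hPc ⟨γ, hγ⟩ z
    have e3 := h ⟨γ, hγ⟩
    simp only at e1 e2
    simp only [Pi.add_apply, e1, e2]
    have e4 : periodMap N f (Additive.ofMul (⟨γ, hγ⟩ : Gamma0 N)) =
      -(s * periodMap N f (Additive.ofMul (jConjGamma0 N ⟨γ, hγ⟩))) := by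
      linear_combination e3
    rw [e4]
    simp
    ring) τ
  have z2 := fun τ => hA2.eq_zero (Γ := Gamma0 N) hM (fun γ hγ z => by
    have e1 := hP ⟨γ, hγ⟩ z
    have e2 := hPc ⟨γ, hγ⟩ z
    have e3 := h ⟨γ, hγ⟩
    simp only at e1 e2
    simp only [Pi.add_apply, e1, e2]
    have e4 : periodMap N f (Additive.ofMul (⟨γ, hγ⟩ : Gamma0 N)) =
      -(s * periodMap N f (Additive.ofMul (jConjGamma0 N ⟨γ, hγ⟩))) := by
      linear_combination e3
    rw [e4]
    simp
    ring) τ
  ext τ
  have e1 := z1 τ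
  have e2 := (mul_eq_zero.mp (z2 τ)).resolve_left Complex.I_ne_zero
  simp only [Pi.add_apply] at e1 e2
  have : (2 : ℂ) * f τ = 0 := by linear_combination e1 + e2
  simpa using this

theorem periodHomPair_injective (N : ℕ) [NeZero N] : Function.Injective (periodHomPair N) := by
  rw [← LinearMap.ker_eq_bot, LinearMap.ker_eq_bot']
  rintro ⟨f, g⟩ hfg
  rw [periodHomPair_apply] at hfg
  -- evaluate at γ and at its conjugate
  have key : ∀ γ : Gamma0 N,
      (periodMap N f (Additive.ofMul γ) + periodMap N f (Additive.ofMul (jConjGamma0 N γ))) +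
      (periodMap N g (Additive.ofMul γ) - periodMap N g (Additive.ofMul (jConjGamma0 N γ))) = 0 := by
    intro γ
    have := DFunLike.congr_fun hfg (Additive.ofMul γ)
    simpa using this
  have hf : f = 0 := by
    apply eq_zero_of_periodMap_add_smul f 1
    intro γ
    have e1 := key γ
    have e2 := key (jConjGamma0 N γ)
    rw [jConjGamma0_jConjGamma0] at e2
    push_cast
    linear_combination (1 / 2 : ℂ) * e1 + (1 / 2 : ℂ) * e2
  have hg : g = 0 := by
    apply eq_zero_of_periodMap_add_smul g (-1)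
    intro γ
    have e1 := key γ
    have e2 := key (jConjGamma0 N γ)
    rw [jConjGamma0_jConjGamma0] at e2
    push_cast
    linear_combination (1 / 2 : ℂ) * e1 - (1 / 2 : ℂ) * e2
  rw [hf, hg]
  rfl

end Fermat.Agent.S21lib
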