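import Mathlib
import Fermat.Prelude.Def_ModularCurve_PeriodHomPair
import Fermat.Agent.S21lib.Injective

/-!
# Eichler–Shimura from a dimension bound

The analytic half (injectivity, range inside the parabolic classes) reduces the Eichler–Shimura
statement to the inequality `dim Hom_par(Γ₀(N), ℂ) ≤ 2 dim S₂(Γ₀(N))`.
-/

set_option autoImplicit false

open CongruenceSubgroup ModularCurve ModularCurve.Period

namespace Fermat.Agent.S21lib

theorem eichlerShimura_of_finrank_le (N : ℕ) [NeZero N]
    [Module.Finite ℂ (parabolicHoms ℂ (Gamma0 N) ℂ)]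
    (h : Module.finrank ℂ (parabolicHoms ℂ (Gamma0 N) ℂ) ≤
      2 * Module.finrank ℂ (CuspForm (Gamma0 N) 2)) :
    Function.Injective (periodHomPair N) ∧
      LinearMap.range (periodHomPair N) = parabolicHoms ℂ (Gamma0 N) ℂ := by
  have hinj := periodHomPair_injective N
  have hle := range_periodHomPair_le N
  refine ⟨hinj, ?_⟩
  -- the source is finite dimensional
  let φ : (CuspForm (Gamma0 N) 2 × CuspForm (Gamma0 N) 2) →ₗ[ℂ] parabolicHoms ℂ (Gamma0 N) ℂ :=
    (periodHomPair N).codRestrict _ (fun x => hle ⟨x, rfl⟩)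
  have hφ : Function.Injective φ := fun x y hxy => hinj (congrArg Subtype.val hxy)
  haveI : Module.Finite ℂ (CuspForm (Gamma0 N) 2 × CuspForm (Gamma0 N) 2) :=
    Module.Finite.of_injective φ hφ
  haveI : Module.Finite ℂ (CuspForm (Gamma0 N) 2) :=
    Module.Finite.of_injective (LinearMap.inl ℂ (CuspForm (Gamma0 N) 2) (CuspForm (Gamma0 N) 2))
      LinearMap.inl_injective
  apply Submodule.eq_of_le_of_finrank_le hle
  rw [LinearMap.finrank_range_of_inj hinj, Module.finrank_prod]
  omega

/-- By-product of injectivity: `2 dim S₂ ≤ dim Hom_par`. -/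
theorem two_mul_finrank_le (N : ℕ) [NeZero N]
    [Module.Finite ℂ (parabolicHoms ℂ (Gamma0 N) ℂ)] :
    2 * Module.finrank ℂ (CuspForm (Gamma0 N) 2) ≤
      Module.finrank ℂ (parabolicHoms ℂ (Gamma0 N) ℂ) := by
  have hinj := periodHomPair_injective N
  have hle := range_periodHomPair_le N
  let φ : (CuspForm (Gamma0 N) 2 × CuspForm (Gamma0 N) 2) →ₗ[ℂ] parabolicHoms ℂ (Gamma0 N) ℂ :=
    (periodHomPair N).codRestrict _ (fun x => hle ⟨x, rfl⟩)
  have hφ : Function.Injective φ := fun x y hxy => hinj (congrArg Subtype.val hxy)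
  haveI : Module.Finite ℂ (CuspForm (Gamma0 N) 2 × CuspForm (Gamma0 N) 2) :=
    Module.Finite.of_injective φ hφ
  haveI : Module.Finite ℂ (CuspForm (Gamma0 N) 2) :=
    Module.Finite.of_injective (LinearMap.inl ℂ (CuspForm (Gamma0 N) 2) (CuspForm (Gamma0 N) 2))
      LinearMap.inl_injective
  have := LinearMap.finrank_le_finrank_of_injective hφ
  rw [Module.finrank_prod] at this
  omega

end Fermat.Agent.S21lib
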